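import Mathlib

set_option autoImplicit false

namespace Fermat.Agent.S21.PeriodicPrimitive

open Complex Function Function.Periodic Filter Topology Metric

local notation "I∞" => comap Complex.im atTop

/-- A holomorphic periodic function on the upper half plane which vanishes at `i∞` has a primitive
which vanishes at `i∞`. -/
theorem exists_primitive_of_periodic {h : ℝ} (hh : 0 < h) {φ : ℂ → ℂ} (hper : Periodic φ h)
    (hdiff : ∀ z : ℂ, 0 < z.im → DifferentiableAt ℂ φ z) (hzero : ZeroAtFilter I∞ φ) :
    ∃ Φ : ℂ → ℂ, (∀ z : ℂ, 0 < z.im → HasDerivAt Φ (φ z) z) ∧ Tendsto Φ I∞ (𝓝 0) := by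
  set g := cuspFunction h φ with hg
  have hg0 : g 0 = 0 := cuspFunction_zero_of_zero_at_inf hh hzero
  have hev : ∀ᶠ z in I∞, DifferentiableAt ℂ φ z := by
    have : ∀ᶠ y in (atTop : Filter ℝ), 0 < y := eventually_gt_atTop 0
    exact (tendsto_comap.eventually this).mono fun z hz => hdiff z hz
  have hgd0 : DifferentiableAt ℂ g 0 :=
    differentiableAt_cuspFunction_zero hh hper hev hzero.boundedAtFilter
  have hgd : DifferentiableOn ℂ g (ball 0 1) := by
    intro q hq
    by_cases hq0 : q = 0
    · subst hq0
      exact hgd0.differentiableWithinAt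
    · have him : 0 < (invQParam h q).im := by
        rw [im_invQParam]
        have hn : ‖q‖ < 1 := by simpa using hq
        have hn0 : 0 < ‖q‖ := norm_pos_iff.2 hq0
        have hlog : Real.log ‖q‖ < 0 := Real.log_neg hn0 hn
        have : -h / (2 * Real.pi) < 0 := div_neg_of_neg_of_pos (by linarith) (by positivity)
        exact mul_pos_of_neg_of_neg this hlog
      have := differentiableAt_cuspFunction hh.ne' hper (hdiff _ him)
      rw [qParam_right_inv hh.ne' hq0] at this
      exact this.differentiableWithinAt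
  have hkd : DifferentiableOn ℂ (dslope g 0) (ball 0 1) :=
    (Complex.differentiableOn_dslope (ball_mem_nhds 0 one_pos)).2 hgd
  obtain ⟨K, hK0, hK⟩ := (hkd.isExactOn_ball).with_val_at 0 0
  refine ⟨fun z => (h / (2 * Real.pi * I)) * K (qParam h z), ?_, ?_⟩
  · intro z hz
    have hq1 : qParam h z ∈ ball (0 : ℂ) 1 := by
      simpa using norm_qParam_lt_one hh hz
    have hq0 : qParam h z ≠ 0 := qParam_ne_zero z
    have hKd := hK _ hq1
    have qdiff : HasDerivAt (qParam h) (qParam h z * (2 * Real.pi * I / h)) z := by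
      simpa only [id_eq, mul_one] using! (((hasDerivAt_id z).const_mul _).div_const _).cexp
    have hcomp := (hKd.comp z qdiff).const_mul (h / (2 * Real.pi * I))
    have hval : φ z = ↑h / (2 * ↑Real.pi * I) *
        (dslope g 0 (qParam h z) * (qParam h z * (2 * ↑Real.pi * I / ↑h))) := by
      rw [dslope_of_ne _ hq0, slope_def_field, hg0, sub_zero, sub_zero, hg,
        eq_cuspFunction hh.ne' hper]
      have hpi : (2 * Real.pi * I : ℂ) ≠ 0 := two_pi_I_ne_zero
      have hhc : (h : ℂ) ≠ 0 := by exact_mod_cast hh.ne'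
      field_simp
    rw [hval]
    exact hcomp
  · have hKc : ContinuousAt K 0 := (hK 0 (mem_ball_self one_pos)).continuousAt
    have h1 : Tendsto (qParam h) I∞ (𝓝 0) := (qParam_tendsto hh).mono_right nhdsWithin_le_nhds
    have h2 : Tendsto (fun z => K (qParam h z)) I∞ (𝓝 0) := by
      have := hKc.tendsto.comp h1
      rwa [hK0] at this
    simpa using h2.const_mul (h / (2 * Real.pi * I))

end Fermat.Agent.S21.PeriodicPrimitive
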