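import Mathlib
import Fermat.Prelude.Def_ModularCurve_PeriodHomPair
import Fermat.Prelude.Thm_CongruenceSubgroup_one_mem_strictPeriods_Gamma0
import Fermat.Prelude.Thm_Subgroup_IsArithmetic_exists_nat_mem_strictPeriods_conj
import Fermat.Agent.S21.PeriodicPrimitive

set_option autoImplicit false

namespace Fermat.Agent.S21

open UpperHalfPlane CongruenceSubgroup ModularCurve ModularCurve.Period Filter Topology
open scoped MatrixGroups ModularForm Manifold

/-- `F` is a holomorphic primitive of `f` on the upper half plane. -/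
def IsPrim (F f : ℍ → ℂ) : Prop := ∀ τ : ℍ, HasDerivAt (F ∘ ofComplex) (f τ) ↑τ

namespace IsPrim

variable {F G f g : ℍ → ℂ}

theorem add (hF : IsPrim F f) (hG : IsPrim G g) : IsPrim (F + G) (f + g) := fun τ =>
  (hF τ).add (hG τ)

theorem sub (hF : IsPrim F f) (hG : IsPrim G g) : IsPrim (F - G) (f - g) := fun τ =>
  (hF τ).sub (hG τ)

theorem const_smul (c : ℂ) (hF : IsPrim F f) : IsPrim (c • F) (c • f) := fun τ =>
  (hF τ).const_smul c

theorem congr_right (hF : IsPrim F f) (h : ∀ z, f z = g z) : IsPrim F g := fun τ =>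
  h τ ▸ hF τ

/-- A function with zero derivative on the upper half plane is constant. -/
theorem const_of_zero (hF : IsPrim F 0) (z w : ℍ) : F z = F w := by
  have hopen : IsOpen {z : ℂ | 0 < z.im} := isOpen_upperHalfPlaneSet
  have hconn : IsPreconnected {z : ℂ | 0 < z.im} := (convex_halfSpace_im_gt 0).isPreconnected
  have hd : DifferentiableOn ℂ (F ∘ ofComplex) {z : ℂ | 0 < z.im} := fun x hx =>
    (hF ⟨x, hx⟩).differentiableAt.differentiableWithinAt
  have hd' : Set.EqOn (fderiv ℂ (F ∘ ofComplex)) 0 {z : ℂ | 0 < z.im} := fun x hx => by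
    have := (hF ⟨x, hx⟩).hasFDerivAt.fderiv
    simpa using this
  have := hopen.is_const_of_fderiv_eq_zero hconn hd hd' z.im_pos w.im_pos
  simpa using this

theorem sub_const (hF : IsPrim F f) (hG : IsPrim G f) (z w : ℍ) : F z - G z = F w - G w := by
  have h : IsPrim (F - G) 0 := (hF.sub hG).congr_right fun z => by simp
  exact h.const_of_zero z w

/-- Chain rule for the Moebius action. -/
theorem comp_smul (hF : IsPrim F f) (γ : SL(2, ℤ)) :
    IsPrim (fun z => F (γ • z)) (f ∣[(2 : ℤ)] γ) := by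
  intro τ
  have hdet1 : ((γ : GL (Fin 2) ℝ)).val.det = 1 := by
    have := Matrix.SpecialLinearGroup.det_mapGL (S := ℝ) γ
    have h2 := congrArg Units.val this
    rw [Matrix.GeneralLinearGroup.val_det_apply] at h2
    exact h2
  have hdet : 0 < ((γ : GL (Fin 2) ℝ)).val.det := by rw [hdet1]; exact one_pos
  have h1 := (hasStrictDerivAt_smul hdet τ).hasDerivAt
  have h2 : HasDerivAt (F ∘ ofComplex) (f (γ • τ)) (↑((γ : GL (Fin 2) ℝ) • ofComplex (τ : ℂ))) := by
    rw [ofComplex_apply]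
    exact hF (γ • τ)
  have h3 := h2.comp (τ : ℂ) h1
  have heq : ((fun z => F (γ • z)) ∘ ofComplex) =
      ((F ∘ ofComplex) ∘ fun z : ℂ => (↑((γ : GL (Fin 2) ℝ) • ofComplex z) : ℂ)) := by
    funext z
    simp only [Function.comp_apply, ofComplex_apply]
    rfl
  rw [heq, ModularForm.SL_slash_apply]
  rw [hdet1] at h3
  have hval : f (γ • τ) * denom γ τ ^ (-(2 : ℤ)) =
      f (γ • τ) * (((1 : ℝ) : ℂ) / denom (γ : GL (Fin 2) ℝ) τ ^ 2) := by
    rw [zpow_neg, Complex.ofReal_one, one_div]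
    rfl
  rw [hval]
  exact h3

end IsPrim


/-- Primitive vanishing at `i∞` of a periodic holomorphic function vanishing at `i∞`. -/
theorem exists_isPrim_of_periodic {h : ℝ} (hh : 0 < h) {f : ℍ → ℂ}
    (hper : Function.Periodic (f ∘ ofComplex) h) (hhol : MDiff f) (hzero : IsZeroAtImInfty f) :
    ∃ F : ℍ → ℂ, IsPrim F f ∧ Tendsto F atImInfty (𝓝 0) := by
  obtain ⟨Φ, hΦ, hlim⟩ := PeriodicPrimitive.exists_primitive_of_periodic hh hper
    (fun z hz => mdifferentiableAt_iff.mp (hhol ⟨z, hz⟩)) hzero.zero_at_infty_comp_ofComplex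
  refine ⟨fun τ => Φ τ, fun τ => ?_, hlim.comp tendsto_coe_atImInfty⟩
  have h1 := hΦ τ τ.im_pos
  simp only [Function.comp_apply, ofComplex_apply] at h1
  refine h1.congr_of_eventuallyEq ?_
  filter_upwards [isOpen_upperHalfPlaneSet.mem_nhds τ.im_pos] with z hz
  simp only [Function.comp_apply, ofComplex_apply_of_im_pos hz]

section CuspForm

variable {N : ℕ} [NeZero N] (f : CuspForm (Gamma0 N) 2)

theorem exists_isPrim_slash (δ : SL(2, ℤ)) :
    ∃ F : ℍ → ℂ, IsPrim F (f ∣[(2 : ℤ)] δ) ∧ Tendsto F atImInfty (𝓝 0) := by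
  obtain ⟨M, hM, hper⟩ := Subgroup.IsArithmetic.exists_nat_mem_strictPeriods_conj
    ((Gamma0 N : Subgroup SL(2, ℤ)) : Subgroup (GL (Fin 2) ℝ))
  have h1 := hper δ⁻¹
  rw [map_inv] at h1
  have h2 := SlashInvariantFormClass.periodic_comp_ofComplex
    (CuspForm.translate f (δ : GL (Fin 2) ℝ)) h1
  have hM' : (0 : ℝ) < M := by exact_mod_cast hM
  exact exists_isPrim_of_periodic hM' h2 ((CuspFormClass.holo f).slash 2 _)
    (CuspFormClass.zero_at_infty_slash f δ)

theorem exists_primitive' : ∃ F : ℍ → ℂ, HasEquivariantPrimitive N f F := by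
  obtain ⟨F, hF, hF0⟩ := exists_isPrim_slash f 1
  have hF' : IsPrim F f := hF.congr_right fun z => by simp
  refine ⟨F, hF', hF0, ?_, ?_⟩
  · intro γ
    have h1 : IsPrim (fun z => F ((γ : SL(2, ℤ)) • z)) f := by
      refine (hF'.comp_smul γ).congr_right fun z => ?_
      have := SlashInvariantForm.slash_action_eqn f _ (Subgroup.mem_map_of_mem _ γ.2)
      exact congrFun this z
    exact ⟨F ((γ : SL(2, ℤ)) • I) - F I, fun z => h1.sub_const hF' z I⟩
  · intro δ
    obtain ⟨G, hG, hG0⟩ := exists_isPrim_slash f δ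
    have h1 := hF'.comp_smul δ
    refine ⟨F (δ • I) - G I, ?_⟩
    have h2 : (fun w : ℍ => F (δ • w)) = fun w => G w + (F (δ • I) - G I) := by
      funext w
      have := h1.sub_const hG w I
      linear_combination this
    rw [h2]
    simpa using hG0.add_const (F (δ • I) - G I)

end CuspForm

theorem exists_conj_upper (γ : SL(2, ℤ))
    (h : ((γ : SL(2, ℤ)) : Matrix (Fin 2) (Fin 2) ℤ).trace ^ 2 = 4) :
    ∃ δ : SL(2, ℤ), (δ⁻¹ * γ * δ) 1 0 = 0 := by
  have hdet : γ 0 0 * γ 1 1 - γ 0 1 * γ 1 0 = 1 := by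
    have := γ.det_coe
    rwa [Matrix.det_fin_two] at this
  rw [Matrix.trace_fin_two] at h
  obtain ⟨ε, hε, htr⟩ : ∃ ε : ℤ, ε ^ 2 = 1 ∧ γ 0 0 + γ 1 1 = 2 * ε := by
    have h' : (γ 0 0 + γ 1 1 - 2) * (γ 0 0 + γ 1 1 + 2) = 0 := by linear_combination h
    rcases mul_eq_zero.1 h' with h1 | h1
    · exact ⟨1, by norm_num, by linarith⟩
    · exact ⟨-1, by norm_num, by linarith⟩
  by_cases hc : γ 1 0 = 0
  · exact ⟨1, by simpa using hc⟩
  · set g : ℤ := (Int.gcd (γ 0 0 - ε) (γ 1 0) : ℤ) with hg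
    have hg0 : g ≠ 0 := by
      rw [hg]
      exact_mod_cast (Int.gcd_pos_of_ne_zero_right _ hc).ne'
    obtain ⟨p, hp⟩ : g ∣ γ 0 0 - ε := Int.gcd_dvd_left ..
    obtain ⟨q, hq⟩ : g ∣ γ 1 0 := Int.gcd_dvd_right ..
    have hcop : IsCoprime p q := by
      have hb := Int.gcd_eq_gcd_ab (γ 0 0 - ε) (γ 1 0)
      rw [← hg] at hb
      refine ⟨Int.gcdA (γ 0 0 - ε) (γ 1 0), Int.gcdB (γ 0 0 - ε) (γ 1 0), ?_⟩
      apply mul_left_cancel₀ hg0
      calc g * (Int.gcdA (γ 0 0 - ε) (γ 1 0) * p + Int.gcdB (γ 0 0 - ε) (γ 1 0) * q)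
          = (g * p) * Int.gcdA (γ 0 0 - ε) (γ 1 0) + (g * q) * Int.gcdB (γ 0 0 - ε) (γ 1 0) := by ring
        _ = g * 1 := by rw [← hp, ← hq, ← hb, mul_one]
    obtain ⟨δ, hδ0, hδ1⟩ := hcop.exists_SL2_col 0
    refine ⟨δ, ?_⟩
    have hentry : (δ⁻¹ * γ * δ) 1 0 =
        γ 1 0 * p ^ 2 + (γ 1 1 - γ 0 0) * p * q - γ 0 1 * q ^ 2 := by
      rw [Matrix.SpecialLinearGroup.coe_mul, Matrix.SpecialLinearGroup.coe_mul,
        Matrix.SpecialLinearGroup.SL2_inv_expl, Matrix.mul_apply, Fin.sum_univ_two,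
        Matrix.mul_apply, Matrix.mul_apply, Fin.sum_univ_two, Fin.sum_univ_two]
      simp [hδ0, hδ1]
      ring
    rw [hentry]
    have hg2 : g ^ 2 ≠ 0 := pow_ne_zero 2 hg0
    apply mul_left_cancel₀ hg2
    have e1 : g * p = γ 0 0 - ε := hp.symm
    have e2 : g * q = γ 1 0 := hq.symm
    calc g ^ 2 * (γ 1 0 * p ^ 2 + (γ 1 1 - γ 0 0) * p * q - γ 0 1 * q ^ 2)
        = γ 1 0 * (g * p) ^ 2 + (γ 1 1 - γ 0 0) * (g * p) * (g * q) - γ 0 1 * (g * q) ^ 2 := by ring
      _ = g ^ 2 * 0 := by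
        rw [e1, e2]
        linear_combination (γ 1 0) * hdet - (γ 1 0) * hε - ε * (γ 1 0) * htr

theorem exists_primitive (N : ℕ) [NeZero N] (f : CuspForm (Gamma0 N) 2) :
    ∃ F : ℍ → ℂ, HasEquivariantPrimitive N f F := exists_primitive' f

theorem primitive_unique {N : ℕ} {f : CuspForm (Gamma0 N) 2} {F G : ℍ → ℂ}
    (hF : HasEquivariantPrimitive N f F) (hG : HasEquivariantPrimitive N f G) : F = G := by
  funext z
  have h1 : IsPrim F f := hF.1
  have h2 : IsPrim G f := hG.1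
  have h3 : Tendsto (fun w => F w - G w) atImInfty (𝓝 (0 - 0)) := hF.2.1.sub hG.2.1
  have h4 : (fun w => F w - G w) = fun _ => F z - G z := by
    funext w
    exact h1.sub_const h2 w z
  rw [h4, sub_zero] at h3
  have := tendsto_nhds_unique h3 tendsto_const_nhds
  exact sub_eq_zero.1 this.symm

theorem periodMap_apply {N : ℕ} {f : CuspForm (Gamma0 N) 2} {F : ℍ → ℂ}
    (hF : HasEquivariantPrimitive N f F) (γ : Gamma0 N) (z : ℍ) :
    periodMap N f (Additive.ofMul γ) = F ((γ : SL(2, ℤ)) • z) - F z := by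
  obtain ⟨F₀, h₀, hp⟩ := periodMap_def N f hF
  have : F₀ = F := primitive_unique h₀ hF
  subst this
  rw [hp, IsEquivariantPrimitive.periodHom_apply, ← h₀.2.2.1.sub_eq_period γ z]

theorem hasEquivariantPrimitive_add {N : ℕ} {f g : CuspForm (Gamma0 N) 2} {F G : ℍ → ℂ}
    (hF : HasEquivariantPrimitive N f F) (hG : HasEquivariantPrimitive N g G) :
    HasEquivariantPrimitive N (f + g) (F + G) := by
  refine ⟨fun τ => (hF.1 τ).add (hG.1 τ), by simpa using! hF.2.1.add hG.2.1, fun γ => ?_,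
    fun δ => ?_⟩
  · obtain ⟨c, hc⟩ := hF.2.2.1 γ
    obtain ⟨d, hd⟩ := hG.2.2.1 γ
    exact ⟨c + d, fun z => by
      simp only [Pi.add_apply]
      linear_combination hc z + hd z⟩
  · obtain ⟨L, hL⟩ := hF.2.2.2 δ
    obtain ⟨M, hM⟩ := hG.2.2.2 δ
    exact ⟨L + M, hL.add hM⟩

theorem hasEquivariantPrimitive_smul {N : ℕ} {f : CuspForm (Gamma0 N) 2} {F : ℍ → ℂ} (a : ℂ)
    (hF : HasEquivariantPrimitive N f F) :
    HasEquivariantPrimitive N (a • f) (a • F) := by
  refine ⟨fun τ => (hF.1 τ).const_smul a, by simpa using! hF.2.1.const_smul a, fun γ => ?_,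
    fun δ => ?_⟩
  · obtain ⟨c, hc⟩ := hF.2.2.1 γ
    exact ⟨a * c, fun z => by
      simp only [Pi.smul_apply, smul_eq_mul]
      linear_combination a * hc z⟩
  · obtain ⟨L, hL⟩ := hF.2.2.2 δ
    exact ⟨a • L, hL.const_smul a⟩

theorem periodMap_add (N : ℕ) [NeZero N] (f g : CuspForm (Gamma0 N) 2) :
    periodMap N (f + g) = periodMap N f + periodMap N g := by
  obtain ⟨F, hF⟩ := exists_primitive N f
  obtain ⟨G, hG⟩ := exists_primitive N g
  refine AddMonoidHom.ext fun γ => ?_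
  have h1 := periodMap_apply (hasEquivariantPrimitive_add hF hG) (Additive.toMul γ) I
  have h2 := periodMap_apply hF (Additive.toMul γ) I
  have h3 := periodMap_apply hG (Additive.toMul γ) I
  simp only [ofMul_toMul] at h1 h2 h3
  rw [AddMonoidHom.add_apply, h1, h2, h3]
  simp only [Pi.add_apply]
  ring

theorem periodMap_smul (N : ℕ) [NeZero N] (a : ℂ) (f : CuspForm (Gamma0 N) 2) :
    periodMap N (a • f) = a • periodMap N f := by
  obtain ⟨F, hF⟩ := exists_primitive N f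
  refine AddMonoidHom.ext fun γ => ?_
  have h1 := periodMap_apply (hasEquivariantPrimitive_smul a hF) (Additive.toMul γ) I
  have h2 := periodMap_apply hF (Additive.toMul γ) I
  simp only [ofMul_toMul] at h1 h2
  rw [AddMonoidHom.smul_apply, h1, h2]
  simp only [Pi.smul_apply, smul_eq_mul]
  ring

/-- The period map as a linear map. -/
noncomputable def periodMapLin (N : ℕ) [NeZero N] :
    CuspForm (Gamma0 N) 2 →ₗ[ℂ] (Additive (Gamma0 N) →+ ℂ) where
  toFun := periodMap N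
  map_add' := periodMap_add N
  map_smul' := periodMap_smul N

theorem existsPeriodMapLinear (N : ℕ) [NeZero N] : ExistsPeriodMapLinear N :=
  ⟨periodMapLin N, fun _ => rfl⟩

theorem periodMap_mem_parabolicHoms (N : ℕ) [NeZero N] (f : CuspForm (Gamma0 N) 2) :
    periodMap N f ∈ parabolicHoms ℂ (Gamma0 N) ℂ := by
  rw [mem_parabolicHoms_iff]
  intro γ hγ
  obtain ⟨F, hF⟩ := exists_primitive N f
  obtain ⟨δ, hδ⟩ := exists_conj_upper (γ : SL(2, ℤ)) hγ
  obtain ⟨L, hL⟩ := hF.2.2.2 δ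
  set γ' : SL(2, ℤ) := δ⁻¹ * γ * δ with hγ'
  have hup : Tendsto (fun τ : ℍ => γ' • τ) atImInfty atImInfty := by
    have : ((γ' : SL(2, ℤ)) : GL (Fin 2) ℝ) 1 0 = 0 := by
      simp [hδ]
    exact tendsto_smul_atImInfty this
  have h1 : Tendsto (fun w : ℍ => F (δ • (γ' • w))) atImInfty (𝓝 L) := hL.comp hup
  have h2 : Tendsto (fun w : ℍ => F (δ • (γ' • w)) - F (δ • w)) atImInfty (𝓝 (L - L)) :=
    h1.sub hL
  have h3 : (fun w : ℍ => F (δ • (γ' • w)) - F (δ • w)) =
      fun _ => periodMap N f (Additive.ofMul γ) := by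
    funext w
    rw [periodMap_apply hF γ (δ • w), ← mul_smul, ← mul_smul, hγ']
    congr 3
    group
  rw [h3, sub_self] at h2
  exact tendsto_nhds_unique tendsto_const_nhds h2

end Fermat.Agent.S21
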