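import Mathlib
import Fermat.Prelude.Def_ModularCurve_PeriodHomPair
import Fermat.Agent.S21.Primitive

set_option autoImplicit false

namespace Fermat.Agent.S21

open UpperHalfPlane CongruenceSubgroup ModularCurve ModularCurve.Period Filter Topology
open scoped MatrixGroups ModularForm Manifold ComplexConjugate Pointwise

theorem J_mul_coe (γ : SL(2, ℤ)) :
    J * (γ : GL (Fin 2) ℝ) = ((jConjSL γ : SL(2, ℤ)) : GL (Fin 2) ℝ) * J := by
  ext i j
  fin_cases i <;> fin_cases j <;>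
    simp [Matrix.mul_apply, Fin.sum_univ_two, jConjMat]

theorem J_inv : (J : GL (Fin 2) ℝ)⁻¹ = J := by
  rw [inv_eq_iff_mul_eq_one, ← sq, J_sq]

theorem jConj_smul_J (γ : SL(2, ℤ)) (z : ℍ) : (jConjSL γ) • (J • z) = J • (γ • z) := by
  change ((jConjSL γ : SL(2, ℤ)) : GL (Fin 2) ℝ) • (J • z) = J • ((γ : GL (Fin 2) ℝ) • z)
  rw [← mul_smul, ← mul_smul, J_mul_coe]

theorem conj_Gamma0 (N : ℕ) :
    ((Gamma0 N : Subgroup SL(2, ℤ)) : Subgroup (GL (Fin 2) ℝ)) =
      ConjAct.toConjAct (J : GL (Fin 2) ℝ)⁻¹ • ((Gamma0 N : Subgroup SL(2, ℤ)) : Subgroup (GL (Fin 2) ℝ)) := by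
  ext g
  rw [Subgroup.mem_pointwise_smul_iff_inv_smul_mem, ← map_inv, inv_inv, ConjAct.toConjAct_smul,
    J_inv]
  constructor
  · rintro ⟨γ, hγ, rfl⟩
    refine ⟨jConjSL γ, jConjSL_mem_Gamma0 hγ, ?_⟩
    have := J_mul_coe γ
    change _ = J * (γ : GL (Fin 2) ℝ) * J
    rw [this, mul_assoc, ← sq, J_sq, mul_one]
    rfl
  · rintro ⟨γ, hγ, hg⟩
    refine ⟨jConjSL γ, jConjSL_mem_Gamma0 hγ, ?_⟩
    have h1 : g = J * (γ : GL (Fin 2) ℝ) * J := by
      change (γ : GL (Fin 2) ℝ) = _ at hg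
      rw [hg]
      have hJ : J * J = (1 : GL (Fin 2) ℝ) := by rw [← sq, J_sq]
      calc g = (J * J) * g * (J * J) := by rw [hJ]; simp
        _ = _ := by group
    rw [h1, J_mul_coe γ, mul_assoc, ← sq, J_sq, mul_one]
    rfl

/-- The cusp form with complex conjugate `q`-expansion. -/
noncomputable def conjForm {N : ℕ} (f : CuspForm (Gamma0 N) 2) : CuspForm (Gamma0 N) 2 :=
  (CuspForm.translate f J).copy ((f : ℍ → ℂ) ∣[(2 : ℤ)] J) rfl (conj_Gamma0 N)

theorem conjForm_apply {N : ℕ} (f : CuspForm (Gamma0 N) 2) (z : ℍ) :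
    conjForm f z = conj (f (J • z)) := by
  change ((f : ℍ → ℂ) ∣[(2 : ℤ)] J) z = _
  simp [ModularForm.slash_apply]


/-- The primitive of the conjugate form. -/
noncomputable def conjPrim (F : ℍ → ℂ) : ℍ → ℂ := fun z => - conj (F (J • z))

theorem IsPrim.conjPrim {F f : ℍ → ℂ} (hF : IsPrim F f) :
    IsPrim (conjPrim F) (fun z => conj (f (J • z))) := by
  intro τ
  have h1 : HasDerivAt (F ∘ ofComplex) (f (J • τ)) (↑(J • τ)) := hF (J • τ)
  have h2 := h1.conj_conj
  have hpt : conj (↑(J • τ) : ℂ) = -(τ : ℂ) := by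
    rw [coe_J_smul]; simp
  rw [hpt] at h2
  have h3 : HasDerivAt (fun z : ℂ => -z) (-1) (τ : ℂ) := (hasDerivAt_id _).neg
  have h4 := (h2.comp (τ : ℂ) h3).neg
  have hval : -(conj (f (J • τ)) * -1) = conj (f (J • τ)) := by ring
  rw [hval] at h4
  refine h4.congr_of_eventuallyEq ?_
  filter_upwards [isOpen_upperHalfPlaneSet.mem_nhds τ.im_pos] with z hz
  simp only [Function.comp_apply, S21.conjPrim, J_smul, ofComplex_apply_of_im_pos hz, Pi.neg_apply,
    map_neg]

theorem tendsto_conjPrim {F : ℍ → ℂ} (hF : Tendsto F atImInfty (𝓝 0)) :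
    Tendsto (conjPrim F) atImInfty (𝓝 0) := by
  have h1 : Tendsto (fun τ : ℍ => J • τ) atImInfty atImInfty :=
    tendsto_smul_atImInfty (by simp [J])
  have h2 := (Complex.continuous_conj.tendsto 0).comp (hF.comp h1)
  have h3 := h2.neg
  simpa using! h3

theorem hasEquivariantPrimitive_conj {N : ℕ} [NeZero N] {f : CuspForm (Gamma0 N) 2} {F : ℍ → ℂ}
    (hF : HasEquivariantPrimitive N f F) :
    HasEquivariantPrimitive N (conjForm f) (conjPrim F) := by
  obtain ⟨G, hG⟩ := exists_primitive N (conjForm f)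
  have h1 : IsPrim G (conjForm f) := hG.1
  have h2 : IsPrim (conjPrim F) (conjForm f) :=
    (IsPrim.conjPrim (f := f) hF.1).congr_right fun z => (conjForm_apply f z).symm
  have h3 : G = conjPrim F := by
    funext z
    have h4 : Tendsto (fun w => G w - conjPrim F w) atImInfty (𝓝 (0 - 0)) :=
      hG.2.1.sub (tendsto_conjPrim hF.2.1)
    have h5 : (fun w => G w - conjPrim F w) = fun _ => G z - conjPrim F z := by
      funext w
      exact h1.sub_const h2 w z
    rw [h5, sub_zero] at h4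
    exact sub_eq_zero.1 (tendsto_nhds_unique h4 tendsto_const_nhds).symm
  rw [← h3]
  exact hG

theorem charInvolution_periodMap {N : ℕ} [NeZero N] (f : CuspForm (Gamma0 N) 2) (γ : Gamma0 N) :
    charInvolution N ℂ ℂ (periodMap N f) (Additive.ofMul γ) =
      - conj (periodMap N (conjForm f) (Additive.ofMul γ)) := by
  obtain ⟨F, hF⟩ := exists_primitive N f
  rw [charInvolution_apply, toMul_ofMul, periodMap_apply hF _ (J • I),
    periodMap_apply (hasEquivariantPrimitive_conj hF) γ I, jConjGamma0_coe, jConj_smul_J]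
  simp only [conjPrim, map_sub, map_neg, Complex.conj_conj]
  ring

end Fermat.Agent.S21
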