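import Mathlib
import Fermat.Prelude.Def_ModularCurve_PeriodMap
import Fermat.Agent.S20.PermEigen

set_option autoImplicit false

open scoped MatrixGroups
open ModularGroup

namespace Fermat.Agent.S21.DimBound

/-! ### Elementary facts on `S`, `T` -/

theorem SS_mul_comm (g : SL(2, ℤ)) : (S * S) * g = g * (S * S) := by
  ext i j
  fin_cases i <;> fin_cases j <;>
    simp [S, Matrix.mul_apply, Fin.sum_univ_two]

theorem ST_cube : (S * T) * (S * T) * (S * T) = S * S := by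
  ext i j
  fin_cases i <;> fin_cases j <;>
    simp [S, T, Matrix.mul_apply, Fin.sum_univ_two]

theorem SS_mul_SS : (S * S) * (S * S) = 1 := by
  ext i j
  fin_cases i <;> fin_cases j <;>
    simp [S, Matrix.mul_apply, Fin.sum_univ_two]

theorem trace_conj_T_zpow (r : SL(2, ℤ)) (n : ℤ) :
    ((r⁻¹ * T ^ n * r : SL(2, ℤ)) : Matrix (Fin 2) (Fin 2) ℤ).trace = 2 := by
  rw [Matrix.SpecialLinearGroup.coe_mul, Matrix.SpecialLinearGroup.coe_mul, Matrix.trace_mul_cycle,
    ← Matrix.SpecialLinearGroup.coe_mul, mul_inv_cancel, Matrix.SpecialLinearGroup.coe_one,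
    one_mul, coe_T_zpow, Matrix.trace_fin_two_of]
  norm_num


/-! ### The space of `T`-invariant equivariant primitives on the group -/

variable (Γ : Subgroup SL(2, ℤ))

/-- Functions `u` on `SL(2,ℤ)` with `u (g γ) - u g` independent of `g` (for `γ ∈ Γ`), and invariant
under left translation by `T`. -/
def UT : Submodule ℂ (SL(2, ℤ) → ℂ) where
  carrier := {u | (∀ (g : SL(2, ℤ)) (γ : Γ), u (g * γ) - u g = u γ - u 1) ∧
    ∀ g : SL(2, ℤ), u (T⁻¹ * g) = u g}
  add_mem' := by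
    rintro a b ⟨ha1, ha2⟩ ⟨hb1, hb2⟩
    refine ⟨fun g γ => ?_, fun g => ?_⟩
    · simp only [Pi.add_apply]
      linear_combination ha1 g γ + hb1 g γ
    · simp only [Pi.add_apply, ha2, hb2]
  zero_mem' := ⟨fun _ _ => by simp, fun _ => by simp⟩
  smul_mem' := by
    rintro c a ⟨ha1, ha2⟩
    refine ⟨fun g γ => ?_, fun g => ?_⟩
    · simp only [Pi.smul_apply, smul_eq_mul]
      linear_combination c * ha1 g γ
    · simp only [Pi.smul_apply, ha2]

variable {Γ}

theorem UT.rel (u : UT Γ) (g : SL(2, ℤ)) (γ : Γ) :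
    u.1 (g * γ) = u.1 g + (u.1 γ - u.1 1) := by
  linear_combination u.2.1 g γ

theorem UT.inv_T (u : UT Γ) (g : SL(2, ℤ)) : u.1 (T⁻¹ * g) = u.1 g := u.2.2 g

variable (Γ)

/-- The homomorphism `Γ → ℂ` attached to an element of `UT`. -/
def piHom : UT Γ →ₗ[ℂ] (Additive Γ →+ ℂ) where
  toFun u :=
    { toFun := fun γ => u.1 (Additive.toMul γ : Γ) - u.1 1
      map_zero' := by simp
      map_add' := by
        intro a b
        have := UT.rel u (Additive.toMul a : Γ) (Additive.toMul b)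
        simp only [toMul_add, Subgroup.coe_mul]
        rw [this]; ring }
  map_add' u v := by
    refine AddMonoidHom.ext fun γ => ?_
    show (u.1 + v.1) (Additive.toMul γ : Γ) - (u.1 + v.1) 1 =
      (u.1 (Additive.toMul γ : Γ) - u.1 1) + (v.1 (Additive.toMul γ : Γ) - v.1 1)
    simp only [Pi.add_apply]
    ring
  map_smul' c u := by
    refine AddMonoidHom.ext fun γ => ?_
    show (c • u.1) (Additive.toMul γ : Γ) - (c • u.1) 1 =
      c • (u.1 (Additive.toMul γ : Γ) - u.1 1)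
    simp only [Pi.smul_apply, smul_eq_mul]
    ring

theorem piHom_apply (u : UT Γ) (γ : Γ) :
    piHom Γ u (Additive.ofMul γ) = u.1 γ - u.1 1 := rfl

/-- The value at `S` of the cocycle attached to an element of `UT`. -/
def lam : UT Γ →ₗ[ℂ] ((SL(2, ℤ) ⧸ Γ) → ℂ) where
  toFun u x := Quotient.liftOn' x (fun g => u.1 (S⁻¹ * g) - u.1 g) (by
    intro a b hab
    have hab' : a⁻¹ * b ∈ Γ := QuotientGroup.leftRel_apply.mp hab
    have hb : b = a * ((⟨a⁻¹ * b, hab'⟩ : Γ) : SL(2, ℤ)) := by simp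
    have h1 := UT.rel u a ⟨a⁻¹ * b, hab'⟩
    have h2 := UT.rel u (S⁻¹ * a) ⟨a⁻¹ * b, hab'⟩
    rw [mul_assoc, ← hb] at h2
    rw [← hb] at h1
    rw [h1, h2]; ring)
  map_add' u v := by
    ext x
    induction x using Quotient.inductionOn' with
    | h g =>
      simp only [Quotient.liftOn'_mk'', Submodule.coe_add, Pi.add_apply]
      ring
  map_smul' c u := by
    ext x
    induction x using Quotient.inductionOn' with
    | h g =>
      simp only [Quotient.liftOn'_mk'', SetLike.val_smul, Pi.smul_apply, smul_eq_mul,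
        RingHom.id_apply]
      ring

theorem lam_mk (u : UT Γ) (g : SL(2, ℤ)) :
    lam Γ u (g : SL(2, ℤ) ⧸ Γ) = u.1 (S⁻¹ * g) - u.1 g := rfl


variable {Γ}

theorem UT.apply_SS (hz : S * S ∈ Γ) (u : UT Γ) : u.1 (S * S) = u.1 1 := by
  have h := UT.rel u (S * S) ⟨S * S, hz⟩
  simp only [SS_mul_SS] at h
  linear_combination (-1/2 : ℂ) * h

theorem UT.SS_mul (hz : S * S ∈ Γ) (u : UT Γ) (g : SL(2, ℤ)) : u.1 ((S * S) * g) = u.1 g := by
  rw [SS_mul_comm]
  have h := UT.rel u g ⟨S * S, hz⟩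
  simp only at h
  rw [h, UT.apply_SS hz]; ring

theorem UT.SS_inv_mul (hz : S * S ∈ Γ) (u : UT Γ) (g : SL(2, ℤ)) :
    u.1 (S⁻¹ * (S⁻¹ * g)) = u.1 g := by
  have := UT.SS_mul hz u (S⁻¹ * (S⁻¹ * g))
  rw [← this]
  congr 1
  group

theorem UT.T_mul (u : UT Γ) (g : SL(2, ℤ)) : u.1 (T * g) = u.1 g := by
  have := UT.inv_T u (T * g)
  rw [inv_mul_cancel_left] at this
  exact this.symm

/-- An element of `UT` which is also left `S`-invariant is constant. -/
theorem UT.eq_const (u : UT Γ) (hS : ∀ g, u.1 (S⁻¹ * g) = u.1 g) (g : SL(2, ℤ)) :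
    u.1 g = u.1 1 := by
  have key : ∀ h : SL(2, ℤ), ∀ g, u.1 (h * g) = u.1 g := by
    intro h
    have hh : h ∈ Subgroup.closure ({S, T} : Set SL(2, ℤ)) := by
      rw [SpecialLinearGroup.SL2Z_generators]; trivial
    induction hh using Subgroup.closure_induction with
    | mem x hx =>
      intro g
      rcases hx with rfl | rfl
      · have := hS (S * g)
        rw [inv_mul_cancel_left] at this
        exact this.symm
      · exact UT.T_mul u g
    | one => intro g; rw [one_mul]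
    | mul x y _ _ hx hy => intro g; rw [mul_assoc, hx, hy]
    | inv x _ hx =>
      intro g
      have := hx (x⁻¹ * g)
      rw [mul_inv_cancel_left] at this
      exact this.symm
  have := key g 1
  rwa [mul_one] at this

variable (Γ)

/-- `u ↦ (u 1, lam u)` is injective. -/
theorem injective_prod_lam :
    Function.Injective (LinearMap.prod ((LinearMap.proj (1 : SL(2, ℤ))).comp (UT Γ).subtype)
      (lam Γ)) := by
  rw [← LinearMap.ker_eq_bot, LinearMap.ker_eq_bot']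
  intro u hu
  have h1 : u.1 1 = 0 := congrArg Prod.fst hu
  have h2 : lam Γ u = 0 := congrArg Prod.snd hu
  have hS : ∀ g, u.1 (S⁻¹ * g) = u.1 g := by
    intro g
    have := congrFun h2 (g : SL(2, ℤ) ⧸ Γ)
    rw [lam_mk] at this
    exact sub_eq_zero.mp this
  apply Subtype.ext
  funext g
  rw [UT.eq_const u hS g, h1]
  rfl

/-- The permutation of the coset space given by `g⁻¹`. -/
noncomputable def perm (g : SL(2, ℤ)) : Equiv.Perm (SL(2, ℤ) ⧸ Γ) := MulAction.toPerm g⁻¹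

theorem perm_mk (g h : SL(2, ℤ)) : perm Γ g (h : SL(2, ℤ) ⧸ Γ) = ((g⁻¹ * h : SL(2, ℤ)) : SL(2, ℤ) ⧸ Γ) :=
  rfl

/-- The kernel of `1 + U + U²`. -/
def kerThree {X : Type*} (σ : Equiv.Perm X) : Submodule ℂ (X → ℂ) where
  carrier := {v | ∀ x, v x + v (σ x) + v (σ (σ x)) = 0}
  add_mem' := by
    intro a b ha hb x
    simp only [Pi.add_apply]
    linear_combination ha x + hb x
  zero_mem' := by intro x; simp
  smul_mem' := by
    intro c a ha x
    simp only [Pi.smul_apply, smul_eq_mul]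
    linear_combination c * ha x

variable {Γ}

theorem lam_mem_A (hz : S * S ∈ Γ) (u : UT Γ) : lam Γ u ∈ S20.permEigen (perm Γ S) (-1) := by
  intro x
  induction x using Quotient.inductionOn' with
  | h g =>
    show lam Γ u (perm Γ S (g : SL(2, ℤ) ⧸ Γ)) = -1 * lam Γ u (g : SL(2, ℤ) ⧸ Γ)
    rw [perm_mk, lam_mk, lam_mk, UT.SS_inv_mul hz]
    ring

theorem UT.ST_inv_mul (u : UT Γ) (g : SL(2, ℤ)) : u.1 ((S * T)⁻¹ * g) = u.1 (S⁻¹ * g) := by
  rw [mul_inv_rev, mul_assoc, UT.inv_T]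

theorem lam_mem_B (hz : S * S ∈ Γ) (u : UT Γ) : lam Γ u ∈ kerThree (perm Γ (S * T)) := by
  intro x
  induction x using Quotient.inductionOn' with
  | h g =>
    show lam Γ u (g : SL(2, ℤ) ⧸ Γ) + lam Γ u (perm Γ (S * T) (g : SL(2, ℤ) ⧸ Γ)) +
      lam Γ u (perm Γ (S * T) (perm Γ (S * T) (g : SL(2, ℤ) ⧸ Γ))) = 0
    rw [perm_mk, perm_mk, lam_mk, lam_mk, lam_mk, ← UT.ST_inv_mul u g,
      ← UT.ST_inv_mul u ((S * T)⁻¹ * g), ← UT.ST_inv_mul u ((S * T)⁻¹ * ((S * T)⁻¹ * g))]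
    have h3 : (S * T)⁻¹ * ((S * T)⁻¹ * ((S * T)⁻¹ * g)) = S⁻¹ * (S⁻¹ * g) := by
      have : (S * T)⁻¹ * ((S * T)⁻¹ * ((S * T)⁻¹ * g)) = ((S * T) * (S * T) * (S * T))⁻¹ * g := by
        group
      rw [this, ST_cube]
      group
    rw [h3, UT.SS_inv_mul hz]
    ring


/-! ### Dimension of `A ⊓ B` -/

theorem perm_mul (g h : SL(2, ℤ)) (x : SL(2, ℤ) ⧸ Γ) :
    perm Γ (g * h) x = perm Γ h (perm Γ g x) := by
  simp only [perm, MulAction.toPerm_apply, mul_inv_rev, mul_smul]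

theorem perm_inv_perm (g : SL(2, ℤ)) (x : SL(2, ℤ) ⧸ Γ) : perm Γ g⁻¹ (perm Γ g x) = x := by
  simp only [perm, MulAction.toPerm_apply, inv_inv, smul_inv_smul]

theorem perm_perm_inv (g : SL(2, ℤ)) (x : SL(2, ℤ) ⧸ Γ) : perm Γ g (perm Γ g⁻¹ x) = x := by
  simp only [perm, MulAction.toPerm_apply, inv_inv, inv_smul_smul]

theorem perm_SS (hz : S * S ∈ Γ) (x : SL(2, ℤ) ⧸ Γ) : perm Γ (S * S) x = x := by
  induction x using Quotient.inductionOn' with
  | h g =>
    show perm Γ (S * S) (g : SL(2, ℤ) ⧸ Γ) = (g : SL(2, ℤ) ⧸ Γ)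
    rw [perm_mk, QuotientGroup.eq]
    have : ((S * S)⁻¹ * g)⁻¹ * g = g⁻¹ * ((S * S) * g) := by
      rw [mul_inv_rev, inv_inv, mul_assoc]
    rw [this, SS_mul_comm, inv_mul_cancel_left]
    exact hz

theorem perm_S_S (hz : S * S ∈ Γ) (x : SL(2, ℤ) ⧸ Γ) : perm Γ S (perm Γ S x) = x := by
  rw [← perm_mul, perm_SS hz]

theorem perm_ST_cube (hz : S * S ∈ Γ) (x : SL(2, ℤ) ⧸ Γ) :
    perm Γ (S * T) (perm Γ (S * T) (perm Γ (S * T) x)) = x := by
  rw [← perm_mul, ← perm_mul, ← mul_assoc, ST_cube, perm_SS hz]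

variable (Γ)

/-- The subgroup of those `h` whose action is trivial modulo `E`. -/
def trivSubgroup (E : Submodule ℂ ((SL(2, ℤ) ⧸ Γ) → ℂ)) : Subgroup SL(2, ℤ) where
  carrier := {h | ∀ v : (SL(2, ℤ) ⧸ Γ) → ℂ, (fun x => v (perm Γ h x)) - v ∈ E}
  mul_mem' := by
    intro a b ha hb v
    have h1 := ha (fun x => v (perm Γ b x))
    have h2 := hb v
    have : (fun x => v (perm Γ (a * b) x)) - v =
        ((fun x => v (perm Γ b (perm Γ a x))) - fun x => v (perm Γ b x)) +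
          ((fun x => v (perm Γ b x)) - v) := by
      funext x
      simp only [Pi.sub_apply, Pi.add_apply, perm_mul]
      ring
    rw [this]
    exact E.add_mem h1 h2
  one_mem' := by
    intro v
    have : (fun x => v (perm Γ 1 x)) - v = 0 := by
      funext x
      simp [perm]
    rw [this]
    exact E.zero_mem
  inv_mem' := by
    intro a ha v
    have h1 := ha (fun x => v (perm Γ a⁻¹ x))
    have : (fun x => v (perm Γ a⁻¹ x)) - v =
        -((fun x => v (perm Γ a⁻¹ (perm Γ a x))) - fun x => v (perm Γ a⁻¹ x)) := by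
      funext x
      simp only [Pi.sub_apply, Pi.neg_apply, perm_inv_perm]
      ring
    rw [this]
    exact E.neg_mem h1

variable {Γ}

theorem trivSubgroup_eq_top (hz : S * S ∈ Γ) :
    trivSubgroup Γ (S20.permEigen (perm Γ S) (-1) ⊔ kerThree (perm Γ (S * T))) = ⊤ := by
  set E := S20.permEigen (perm Γ S) (-1) ⊔ kerThree (perm Γ (S * T)) with hE
  have hS : S ∈ trivSubgroup Γ E := by
    intro v
    apply Submodule.mem_sup_left
    intro x
    simp only [Pi.sub_apply, perm_S_S hz]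
    ring
  have hST : S * T ∈ trivSubgroup Γ E := by
    intro v
    apply Submodule.mem_sup_right
    intro x
    simp only [Pi.sub_apply, perm_ST_cube hz]
    ring
  have hT : T ∈ trivSubgroup Γ E := by
    have := (trivSubgroup Γ E).mul_mem ((trivSubgroup Γ E).inv_mem hS) hST
    rwa [inv_mul_cancel_left] at this
  rw [eq_top_iff, ← SpecialLinearGroup.SL2Z_generators, Subgroup.closure_le]
  rintro x (rfl | rfl)
  · exact hS
  · exact hT

section Finite

variable [Fintype (SL(2, ℤ) ⧸ Γ)] [DecidableEq (SL(2, ℤ) ⧸ Γ)]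

omit [Fintype (SL(2, ℤ) ⧸ Γ)] in
theorem single_sub_single_mem (hz : S * S ∈ Γ) (x y : SL(2, ℤ) ⧸ Γ) :
    (Pi.single x (1 : ℂ) - Pi.single y 1 : (SL(2, ℤ) ⧸ Γ) → ℂ) ∈
      S20.permEigen (perm Γ S) (-1) ⊔ kerThree (perm Γ (S * T)) := by
  obtain ⟨h, rfl⟩ := MulAction.exists_smul_eq SL(2, ℤ) y x
  have hh : h ∈ trivSubgroup Γ (S20.permEigen (perm Γ S) (-1) ⊔ kerThree (perm Γ (S * T))) := by
    rw [trivSubgroup_eq_top hz]; trivial
  have := hh (Pi.single y 1)
  convert this using 2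
  funext z
  simp only [perm, MulAction.toPerm_apply, Pi.single_apply]
  congr 1
  rw [eq_iff_iff, inv_smul_eq_iff]

/-- The sum functional. -/
def sumFun : ((SL(2, ℤ) ⧸ Γ) → ℂ) →ₗ[ℂ] ℂ where
  toFun v := ∑ x, v x
  map_add' a b := by simp [Finset.sum_add_distrib]
  map_smul' c a := by simp [Finset.mul_sum]

theorem ker_sumFun_le (hz : S * S ∈ Γ) :
    LinearMap.ker (sumFun (Γ := Γ)) ≤
      S20.permEigen (perm Γ S) (-1) ⊔ kerThree (perm Γ (S * T)) := by
  intro v hv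
  have hv' : ∑ x, v x = 0 := hv
  let x₀ : SL(2, ℤ) ⧸ Γ := ((1 : SL(2, ℤ)) : SL(2, ℤ) ⧸ Γ)
  have : v = ∑ x, v x • (Pi.single x (1 : ℂ) - Pi.single x₀ 1 : (SL(2, ℤ) ⧸ Γ) → ℂ) := by
    simp only [smul_sub, Finset.sum_sub_distrib, ← Finset.sum_smul, hv', zero_smul, sub_zero]
    funext y
    simp [Finset.sum_apply, Pi.single_apply]
  rw [this]
  exact Submodule.sum_mem _ fun x _ => Submodule.smul_mem _ _ (single_sub_single_mem hz x x₀)

theorem finrank_ker_sumFun :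
    Module.finrank ℂ (LinearMap.ker (sumFun (Γ := Γ))) + 1 = Fintype.card (SL(2, ℤ) ⧸ Γ) := by
  have h := LinearMap.finrank_range_add_finrank_ker (sumFun (Γ := Γ))
  have hsurj : LinearMap.range (sumFun (Γ := Γ)) = ⊤ := by
    rw [LinearMap.range_eq_top]
    intro c
    refine ⟨Pi.single ((1 : SL(2, ℤ)) : SL(2, ℤ) ⧸ Γ) c, ?_⟩
    simp [sumFun]
  rw [hsurj, finrank_top, Module.finrank_self, Module.finrank_fintype_fun_eq_card] at h
  omega

theorem finrank_inf_le (hz : S * S ∈ Γ) :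
    Module.finrank ℂ ↥(S20.permEigen (perm Γ S) (-1) ⊓ kerThree (perm Γ (S * T))) +
        Fintype.card (SL(2, ℤ) ⧸ Γ) ≤
      Module.finrank ℂ (S20.permEigen (perm Γ S) (-1)) +
        Module.finrank ℂ (kerThree (perm Γ (S * T))) + 1 := by
  have h1 := Submodule.finrank_sup_add_finrank_inf_eq (S20.permEigen (perm Γ S) (-1))
    (kerThree (perm Γ (S * T)))
  have h2 := Submodule.finrank_mono (ker_sumFun_le (Γ := Γ) hz)
  have h3 := finrank_ker_sumFun (Γ := Γ)
  omega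

end Finite


/-! ### Dimension of `kerThree` -/

section KerThree

variable {X : Type*} [Fintype X] [DecidableEq X]

/-- The operator `1 + σ + σ²`. -/
def opThree (σ : Equiv.Perm X) : (X → ℂ) →ₗ[ℂ] (X → ℂ) where
  toFun v x := v x + v (σ x) + v (σ (σ x))
  map_add' a b := by funext x; simp only [Pi.add_apply]; ring
  map_smul' c a := by funext x; simp only [Pi.smul_apply, smul_eq_mul, RingHom.id_apply]; ring

omit [Fintype X] [DecidableEq X] in
theorem ker_opThree (σ : Equiv.Perm X) : LinearMap.ker (opThree σ) = kerThree σ := by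
  ext v
  rw [LinearMap.mem_ker]
  constructor
  · intro h x
    exact congrFun h x
  · intro h
    funext x
    exact h x

omit [Fintype X] [DecidableEq X] in
theorem permEigen_one_le_range (σ : Equiv.Perm X) :
    S20.permEigen σ 1 ≤ LinearMap.range (opThree σ) := by
  intro v hv
  have hv' : ∀ x, v (σ x) = v x := fun x => by rw [hv x, one_mul]
  refine ⟨(1 / 3 : ℂ) • v, ?_⟩
  funext x
  simp only [opThree, LinearMap.coe_mk, AddHom.coe_mk, Pi.smul_apply, smul_eq_mul, hv']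
  ring

omit [DecidableEq X] in
theorem finrank_kerThree_add_le (σ : Equiv.Perm X) :
    Module.finrank ℂ (kerThree σ) + Module.finrank ℂ (S20.permEigen σ 1) ≤ Fintype.card X := by
  have h := LinearMap.finrank_range_add_finrank_ker (opThree σ)
  rw [ker_opThree, Module.finrank_fintype_fun_eq_card] at h
  have h2 := Submodule.finrank_mono (permEigen_one_le_range σ)
  omega

end KerThree

/-! ### The kernel of `piHom` -/

variable (Γ)

/-- The set of `T`-orbits on the coset space. -/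
abbrev Orb : Type := MulAction.orbitRel.Quotient (Subgroup.zpowers T) (SL(2, ℤ) ⧸ Γ)

/-- The `T`-orbit of the coset of `g`. -/
def orbOf (g : SL(2, ℤ)) : Orb Γ :=
  Quotient.mk'' (g : SL(2, ℤ) ⧸ Γ)

variable {Γ}

theorem orbOf_mul_right (g : SL(2, ℤ)) (γ : Γ) : orbOf Γ (g * γ) = orbOf Γ g := by
  unfold orbOf
  congr 1
  rw [QuotientGroup.eq]
  simp

theorem orbOf_T_zpow_mul (n : ℤ) (g : SL(2, ℤ)) : orbOf Γ (T ^ n * g) = orbOf Γ g := by
  unfold orbOf
  apply Quotient.sound'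
  rw [MulAction.orbitRel_apply]
  exact ⟨⟨T ^ n, ⟨n, rfl⟩⟩, rfl⟩

theorem orbOf_surjective : Function.Surjective (orbOf Γ) := by
  intro o
  induction o using Quotient.inductionOn' with
  | h x =>
    induction x using Quotient.inductionOn' with
    | h g => exact ⟨g, rfl⟩

variable (Γ)

/-- Functions on `T`-orbits give elements of `UT`. -/
def orbEmb : (Orb Γ → ℂ) →ₗ[ℂ] UT Γ where
  toFun f := ⟨fun g => f (orbOf Γ g), by
    refine ⟨fun g γ => ?_, fun g => ?_⟩
    · have h1 := orbOf_mul_right g γ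
      have h2 := orbOf_mul_right (1 : SL(2, ℤ)) γ
      rw [one_mul] at h2
      simp only [h1, h2, sub_self]
    · have := orbOf_T_zpow_mul (Γ := Γ) (-1) g
      rw [zpow_neg_one] at this
      simp only [this]⟩
  map_add' a b := rfl
  map_smul' c a := rfl

theorem orbEmb_injective : Function.Injective (orbEmb Γ) := by
  intro a b hab
  funext o
  obtain ⟨g, rfl⟩ := orbOf_surjective o
  exact congrFun (congrArg Subtype.val hab) g

theorem orbEmb_mem_ker (f : Orb Γ → ℂ) : orbEmb Γ f ∈ LinearMap.ker (piHom Γ) := by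
  rw [LinearMap.mem_ker]
  refine AddMonoidHom.ext fun γ => ?_
  show f (orbOf Γ ((Additive.toMul γ : Γ) : SL(2, ℤ))) - f (orbOf Γ 1) = 0
  have h2 := orbOf_mul_right (1 : SL(2, ℤ)) (Additive.toMul γ : Γ)
  rw [one_mul] at h2
  rw [h2, sub_self]

/-! ### Surjectivity of `piHom` onto parabolic homomorphisms -/

/-- A representative in `SL(2,ℤ)` of a `T`-orbit. -/
noncomputable def rep (o : Orb Γ) : SL(2, ℤ) := (Quotient.out o : SL(2, ℤ) ⧸ Γ).out

variable {Γ}

theorem exists_decomp (g : SL(2, ℤ)) :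
    ∃ (n : ℤ) (γ : Γ), g = T ^ n * rep Γ (orbOf Γ g) * γ := by
  have h1 : (MulAction.orbitRel (Subgroup.zpowers T) (SL(2, ℤ) ⧸ Γ)).r
      (Quotient.out (orbOf Γ g)) (g : SL(2, ℤ) ⧸ Γ) := Quotient.mk_out (s := MulAction.orbitRel (Subgroup.zpowers T) (SL(2, ℤ) ⧸ Γ)) _
  have h1' : (Quotient.out (orbOf Γ g) : SL(2, ℤ) ⧸ Γ) ∈
      MulAction.orbit (Subgroup.zpowers T) (g : SL(2, ℤ) ⧸ Γ) := h1
  obtain ⟨⟨t, ⟨k, rfl⟩⟩, ht⟩ := h1'
  have h2 : ((T ^ k * g : SL(2, ℤ)) : SL(2, ℤ) ⧸ Γ) = ((rep Γ (orbOf Γ g) : SL(2, ℤ)) : SL(2, ℤ) ⧸ Γ) := by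
    rw [rep, QuotientGroup.out_eq']
    exact ht
  have h3 : (rep Γ (orbOf Γ g))⁻¹ * (T ^ k * g) ∈ Γ := QuotientGroup.eq.mp h2.symm
  refine ⟨-k, ⟨_, h3⟩, ?_⟩
  simp only [zpow_neg]
  group

theorem parabolic_key {ψ : Additive Γ →+ ℂ}
    (hψ : ψ ∈ ModularCurve.Period.parabolicHoms ℂ Γ ℂ) (r : SL(2, ℤ)) (n n' : ℤ) (γ γ' : Γ)
    (h : T ^ n * r * γ = T ^ n' * r * γ') : ψ (Additive.ofMul γ) = ψ (Additive.ofMul γ') := by
  have h1 : ((γ' * γ⁻¹ : Γ) : SL(2, ℤ)) = r⁻¹ * T ^ (n - n') * r := by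
    have : (γ' : SL(2, ℤ)) = r⁻¹ * T ^ (n - n') * r * γ := by
      have h2 : (γ' : SL(2, ℤ)) = (T ^ n' * r)⁻¹ * (T ^ n * r * γ) := by
        rw [h, inv_mul_cancel_left]
      rw [h2, zpow_sub]
      group
    rw [Subgroup.coe_mul, this, Subgroup.coe_inv, mul_inv_cancel_right]
  have h2 : ψ (Additive.ofMul (γ' * γ⁻¹)) = 0 := by
    apply hψ
    rw [h1, trace_conj_T_zpow]
    norm_num
  have h3 : ψ (Additive.ofMul (γ' * γ⁻¹)) = ψ (Additive.ofMul γ') - ψ (Additive.ofMul γ) := by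
    rw [ofMul_mul, map_add, ofMul_inv, map_neg, sub_eq_add_neg]
  rw [h3] at h2
  exact (sub_eq_zero.mp h2).symm

theorem exists_UT_of_parabolic {ψ : Additive Γ →+ ℂ}
    (hψ : ψ ∈ ModularCurve.Period.parabolicHoms ℂ Γ ℂ) : ∃ u : UT Γ, piHom Γ u = ψ := by
  choose n γ hnγ using exists_decomp (Γ := Γ)
  let u : SL(2, ℤ) → ℂ := fun g => ψ (Additive.ofMul (γ g))
  have hu1 : ∀ (g : SL(2, ℤ)) (δ : Γ), u (g * δ) = u g + ψ (Additive.ofMul δ) := by
    intro g δ
    have e1 := hnγ (g * δ)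
    rw [orbOf_mul_right] at e1
    have e2 : g * δ = T ^ n g * rep Γ (orbOf Γ g) * ((γ g * δ : Γ) : SL(2, ℤ)) := by
      rw [Subgroup.coe_mul, ← mul_assoc, ← hnγ g]
    have := parabolic_key hψ _ _ _ _ _ (e1.symm.trans e2)
    show ψ (Additive.ofMul (γ (g * δ))) = _
    rw [this, ofMul_mul, map_add]
  have hu2 : ∀ g : SL(2, ℤ), u (T⁻¹ * g) = u g := by
    intro g
    have e1 := hnγ (T⁻¹ * g)
    have e0 : orbOf Γ (T⁻¹ * g) = orbOf Γ g := by
      have := orbOf_T_zpow_mul (Γ := Γ) (-1) g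
      rwa [zpow_neg_one] at this
    rw [e0] at e1
    have e2 : T⁻¹ * g = T ^ (n g - 1) * rep Γ (orbOf Γ g) * (γ g : SL(2, ℤ)) := by
      conv_lhs => rw [hnγ g]
      rw [zpow_sub, zpow_one]
      have hc : T⁻¹ * T ^ n g = T ^ n g * T⁻¹ := by
        rw [← zpow_neg_one, ← zpow_add, ← zpow_add, add_comm]
      rw [← mul_assoc, ← mul_assoc, hc]
    exact parabolic_key hψ _ _ _ _ _ (e1.symm.trans e2)
  have hu3 : ∀ δ : Γ, u δ - u 1 = ψ (Additive.ofMul δ) := by
    intro δ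
    have := hu1 1 δ
    rw [one_mul] at this
    rw [this]; ring
  refine ⟨⟨u, fun g δ => ?_, hu2⟩, ?_⟩
  · rw [hu1, hu3]; ring
  · refine AddMonoidHom.ext fun δ => ?_
    exact hu3 (Additive.toMul δ)

theorem parabolicHoms_le_range :
    ModularCurve.Period.parabolicHoms ℂ Γ ℂ ≤ LinearMap.range (piHom Γ) := by
  intro ψ hψ
  exact exists_UT_of_parabolic hψ


/-! ### Assembly -/

section Assembly

variable [Fintype (SL(2, ℤ) ⧸ Γ)] [DecidableEq (SL(2, ℤ) ⧸ Γ)]

omit [DecidableEq (SL(2, ℤ) ⧸ Γ)] in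
theorem finiteDimensional_UT : FiniteDimensional ℂ (UT Γ) :=
  FiniteDimensional.of_injective _ (injective_prod_lam Γ)

omit [DecidableEq (SL(2, ℤ) ⧸ Γ)] in
theorem finrank_UT_le (hz : S * S ∈ Γ) :
    Module.finrank ℂ (UT Γ) ≤
      1 + Module.finrank ℂ ↥(S20.permEigen (perm Γ S) (-1) ⊓ kerThree (perm Γ (S * T))) := by
  let L : UT Γ →ₗ[ℂ] ℂ × ↥(S20.permEigen (perm Γ S) (-1) ⊓ kerThree (perm Γ (S * T))) :=
    LinearMap.prod ((LinearMap.proj (1 : SL(2, ℤ))).comp (UT Γ).subtype)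
      (LinearMap.codRestrict _ (lam Γ) fun u => ⟨lam_mem_A hz u, lam_mem_B hz u⟩)
  have hL : Function.Injective L := by
    intro u v huv
    apply injective_prod_lam Γ
    have h1 : u.1 1 = v.1 1 := congrArg Prod.fst huv
    have h2 : lam Γ u = lam Γ v := congrArg (fun p => (p.2 : (SL(2, ℤ) ⧸ Γ) → ℂ)) huv
    exact Prod.ext h1 h2
  have := LinearMap.finrank_le_finrank_of_injective hL
  rwa [Module.finrank_prod, Module.finrank_self] at this

omit [DecidableEq (SL(2, ℤ) ⧸ Γ)] in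
theorem finiteDimensional_parabolicHoms :
    FiniteDimensional ℂ (ModularCurve.Period.parabolicHoms ℂ Γ ℂ) := by
  haveI := finiteDimensional_UT (Γ := Γ)
  exact Submodule.finiteDimensional_of_le (parabolicHoms_le_range (Γ := Γ))

omit [DecidableEq (SL(2, ℤ) ⧸ Γ)] in
theorem finrank_parabolicHoms_add_le :
    Module.finrank ℂ (ModularCurve.Period.parabolicHoms ℂ Γ ℂ) + Nat.card (Orb Γ) ≤
      Module.finrank ℂ (UT Γ) := by
  haveI := finiteDimensional_UT (Γ := Γ)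
  have h := LinearMap.finrank_range_add_finrank_ker (piHom Γ)
  have h1 := Submodule.finrank_mono (parabolicHoms_le_range (Γ := Γ))
  haveI : Finite (Orb Γ) := Quotient.finite _
  letI : Fintype (Orb Γ) := Fintype.ofFinite _
  have h2 : Module.finrank ℂ (Orb Γ → ℂ) ≤ Module.finrank ℂ (LinearMap.ker (piHom Γ)) := by
    apply LinearMap.finrank_le_finrank_of_injective
      (f := LinearMap.codRestrict _ (orbEmb Γ) (orbEmb_mem_ker Γ))
    intro a b hab
    exact orbEmb_injective Γ (congrArg Subtype.val hab)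
  rw [Module.finrank_fintype_fun_eq_card, ← Nat.card_eq_fintype_card] at h2
  omega

omit [Fintype (SL(2, ℤ) ⧸ Γ)] [DecidableEq (SL(2, ℤ) ⧸ Γ)] in
theorem perm_S_sq (hz : S * S ∈ Γ) : perm Γ S ^ 2 = 1 := by
  ext x
  rw [pow_two, Equiv.Perm.mul_apply, perm_S_S hz, Equiv.Perm.one_apply]

omit [Fintype (SL(2, ℤ) ⧸ Γ)] [DecidableEq (SL(2, ℤ) ⧸ Γ)] in
theorem perm_ST_pow_three (hz : S * S ∈ Γ) : perm Γ (S * T) ^ 3 = 1 := by
  ext x
  rw [pow_succ, pow_two, Equiv.Perm.mul_apply, Equiv.Perm.mul_apply, perm_ST_cube hz,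
    Equiv.Perm.one_apply]

theorem card_fix_perm (g : SL(2, ℤ)) :
    Fintype.card {x // perm Γ g x = x} = Nat.card (MulAction.fixedBy (SL(2, ℤ) ⧸ Γ) g) := by
  rw [← Nat.card_eq_fintype_card]
  apply Nat.card_congr
  refine Equiv.subtypeEquivRight fun x => ?_
  rw [MulAction.mem_fixedBy, perm, MulAction.toPerm_apply, inv_smul_eq_iff, eq_comm]

/-- The dimension bound, in integral form. -/
theorem six_mul_finrank_le (hz : S * S ∈ Γ) :
    6 * Module.finrank ℂ (ModularCurve.Period.parabolicHoms ℂ Γ ℂ) + 6 * Nat.card (Orb Γ) +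
      3 * Nat.card (MulAction.fixedBy (SL(2, ℤ) ⧸ Γ) S) +
      4 * Nat.card (MulAction.fixedBy (SL(2, ℤ) ⧸ Γ) (S * T)) ≤
    12 + Nat.card (SL(2, ℤ) ⧸ Γ) := by
  have h1 := finrank_parabolicHoms_add_le (Γ := Γ)
  have h2 := finrank_UT_le (Γ := Γ) hz
  have h3 := finrank_inf_le (Γ := Γ) hz
  have h4 := S20.finrank_permEigen_two_neg_one (perm Γ S) (perm_S_sq hz)
  have h5 := finrank_kerThree_add_le (perm Γ (S * T))
  have h6 := S20.finrank_permEigen_three_one (perm Γ (S * T)) (perm_ST_pow_three hz)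
  rw [card_fix_perm] at h4 h6
  rw [Nat.card_eq_fintype_card (α := SL(2, ℤ) ⧸ Γ)]
  omega

end Assembly

end Fermat.Agent.S21.DimBound
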