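import Mathlib
import Fermat.Prelude.Def_ModularCurve_PeriodMap
import Fermat.Prelude.Def_ModularCurve_GenusNumerics
import Fermat.Agent.S21.DimBound
import Fermat.Agent.S20.CountIndex
import Fermat.Agent.S20.CountElliptic
import Fermat.Agent.S20.CountCusps

set_option autoImplicit false

open scoped MatrixGroups
open ModularGroup CongruenceSubgroup

namespace Fermat.Agent.S21

theorem DimBound.SS_mem_Gamma0 (N : ℕ) : S * S ∈ Gamma0 N := by
  rw [Gamma0_mem]
  simp [ModularGroup.S, Matrix.mul_apply, Fin.sum_univ_two]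

theorem DimBound.finite_quotient_Gamma0 (N : ℕ) [NeZero N] : Finite (SL(2, ℤ) ⧸ Gamma0 N) :=
  Subgroup.finite_quotient_of_finiteIndex

/-- The space of parabolic homomorphisms of `Γ₀(N)` is finite dimensional. -/
theorem finiteDimensional_parabolicHoms_Gamma0 (N : ℕ) [NeZero N] :
    FiniteDimensional ℂ (ModularCurve.Period.parabolicHoms ℂ (Gamma0 N) ℂ) := by
  classical
  haveI := DimBound.finite_quotient_Gamma0 N
  haveI : Fintype (SL(2, ℤ) ⧸ Gamma0 N) := Fintype.ofFinite _
  exact DimBound.finiteDimensional_parabolicHoms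

/-- The dimension bound `dim Hom_par(Γ₀(N), ℂ) ≤ 2 g`. -/
theorem finrank_parabolicHoms_Gamma0_le (N : ℕ) [NeZero N] :
    (Module.finrank ℂ (ModularCurve.Period.parabolicHoms ℂ (Gamma0 N) ℂ) : ℚ) ≤
      2 * ModularCurve.genusFormula N := by
  classical
  haveI := DimBound.finite_quotient_Gamma0 N
  haveI : Fintype (SL(2, ℤ) ⧸ Gamma0 N) := Fintype.ofFinite _
  have h := DimBound.six_mul_finrank_le (Γ := Gamma0 N) (DimBound.SS_mem_Gamma0 N)
  rw [S20.card_quotient_Gamma0, S20.card_fixedBy_S, S20.card_fixedBy_ST, S20.card_orbits_T] at h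
  have h' : (6 * (Module.finrank ℂ (ModularCurve.Period.parabolicHoms ℂ (Gamma0 N) ℂ) : ℚ) +
      6 * (ModularCurve.cuspCount N : ℚ) + 3 * (ModularCurve.nuTwo N : ℚ) +
      4 * (ModularCurve.nuThree N : ℚ)) ≤ 12 + (ModularCurve.dedekindPsi N : ℚ) := by
    exact_mod_cast h
  unfold ModularCurve.genusFormula
  linarith

end Fermat.Agent.S21
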