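import Mathlib

/-!
# A maximum principle for holomorphic functions on `ℍ` whose real part is `Γ`-invariant
-/

open UpperHalfPlane Filter Topology
open scoped MatrixGroups Manifold ContDiff

namespace Fermat.Agent.S21

namespace MaxPrinciple

open Function.Periodic in
/-- A holomorphic periodic function on `ℍ` with a limit at `i∞`: its real part on `Im ≥ 1/2`
is dominated by its value at some point of `ℍ`. -/
theorem exists_max_cusp (f : ℍ → ℂ)
    (hdiff : ∀ τ : ℍ, DifferentiableAt ℂ (f ∘ ofComplex) ↑τ) (h : ℕ) (hh : 0 < h)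
    (hper : ∀ w : ℍ, f ((h : ℝ) +ᵥ w) = f w) (L : ℂ) (hlim : Tendsto f atImInfty (𝓝 L)) :
    ∃ w₀ : ℍ, ∀ w : ℍ, 1 / 2 ≤ w.im → (f w).re ≤ (f w₀).re := by
  have hh' : (0 : ℝ) < h := by exact_mod_cast hh
  have hh0 : (h : ℝ) ≠ 0 := hh'.ne'
  -- periodicity on `ℂ`
  have hP : Function.Periodic (f ∘ ofComplex) ((h : ℝ) : ℂ) := by
    intro w
    by_cases hw : 0 < w.im
    · have hw2 : 0 < (w + ((h : ℝ) : ℂ)).im := by simpa using hw
      simp only [Function.comp_apply, ofComplex_apply_of_im_pos hw2, ofComplex_apply_of_im_pos hw]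
      rw [← hper ⟨w, hw⟩]
      congr 1
      ext
      simp [add_comm]
    · have hw2 : (w + ((h : ℝ) : ℂ)).im ≤ 0 := by simpa using hw
      simp only [Function.comp_apply, ofComplex_apply_of_im_nonpos hw2,
        ofComplex_apply_of_im_nonpos (not_lt.mp hw)]
  set F : ℂ → ℂ := cuspFunction h (f ∘ ofComplex) with hF
  have hFq : ∀ z : ℂ, F (qParam h z) = f (ofComplex z) := fun z => eq_cuspFunction hh0 hP z
  -- differentiability away from 0
  have hd1 : ∀ q : ℂ, q ≠ 0 → ‖q‖ < 1 → DifferentiableAt ℂ F q := by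
    intro q hq hq1
    have him : 0 < (invQParam h q).im := by
      rw [im_invQParam]
      have : Real.log ‖q‖ < 0 := Real.log_neg (norm_pos_iff.mpr hq) hq1
      have h2 : -(h : ℝ) / (2 * Real.pi) < 0 := by
        apply div_neg_of_neg_of_pos (by linarith) (by positivity)
      exact mul_pos_of_neg_of_neg h2 this
    have := differentiableAt_cuspFunction hh0 hP (hdiff ⟨_, him⟩)
    rwa [show ((⟨invQParam h q, him⟩ : ℍ) : ℂ) = invQParam h q from rfl,
      qParam_right_inv hh0 hq] at this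
  have hd0 : DifferentiableAt ℂ F 0 := by
    apply differentiableAt_cuspFunction_zero hh' hP
    · have : ∀ᶠ z : ℂ in comap Complex.im atTop, 0 < z.im :=
        (tendsto_comap (f := Complex.im) (x := atTop)).eventually (eventually_gt_atTop 0)
      filter_upwards [this] with z hz
      exact hdiff ⟨z, hz⟩
    · have : Tendsto (f ∘ ofComplex) (comap Complex.im atTop) (𝓝 L) :=
        hlim.comp tendsto_comap_im_ofComplex
      exact this.isBigO_one ℝ
  have hd : ∀ q : ℂ, ‖q‖ < 1 → DifferentiableAt ℂ F q := by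
    intro q hq
    by_cases h0 : q = 0
    · rw [h0]; exact hd0
    · exact hd1 q h0 hq
  set r : ℝ := Real.exp (-Real.pi / h) with hr
  have hr0 : 0 < r := Real.exp_pos _
  have hr1 : r < 1 := by
    rw [hr, Real.exp_lt_one_iff]
    exact div_neg_of_neg_of_pos (by linarith [Real.pi_pos]) hh'
  have hdc : DiffContOnCl ℂ (fun q => Complex.exp (F q)) (Metric.ball 0 r) := by
    apply DifferentiableOn.diffContOnCl
    intro q hq
    rw [closure_ball _ hr0.ne'] at hq
    have : ‖q‖ < 1 := lt_of_le_of_lt (by simpa using hq) hr1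
    exact (hd q this).cexp.differentiableWithinAt
  obtain ⟨q₀, hq₀, hmax⟩ := Complex.exists_mem_frontier_isMaxOn_norm
    (Metric.isBounded_ball) (Metric.nonempty_ball.mpr hr0) hdc
  rw [frontier_ball _ hr0.ne'] at hq₀
  rw [closure_ball _ hr0.ne'] at hmax
  have hq₀n : ‖q₀‖ = r := by simpa using hq₀
  have hq₀0 : q₀ ≠ 0 := by
    rw [← norm_pos_iff, hq₀n]; exact hr0
  have him : 0 < (invQParam h q₀).im := by
    rw [im_invQParam, hq₀n, hr, Real.log_exp]
    have : -(h : ℝ) / (2 * Real.pi) * (-Real.pi / h) = 1 / 2 := by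
      field_simp
    rw [this]; norm_num
  refine ⟨⟨_, him⟩, fun w hw => ?_⟩
  have hwq : qParam h (w : ℂ) ∈ Metric.closedBall (0 : ℂ) r := by
    rw [mem_closedBall_zero_iff, norm_qParam, hr]
    apply Real.exp_le_exp.mpr
    rw [div_le_div_iff_of_pos_right hh']
    have : (w : ℂ).im = w.im := rfl
    rw [this]
    nlinarith [Real.pi_pos]
  have h1 := hmax hwq
  simp only [Function.comp_apply, Set.mem_ofPred_eq, Complex.norm_exp] at h1
  rw [Real.exp_le_exp, hFq, ofComplex_apply] at h1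
  refine h1.trans (le_of_eq ?_)
  have h2 := hFq (invQParam h q₀)
  rw [qParam_right_inv hh0 hq₀0, ofComplex_apply_of_im_pos him] at h2
  rw [h2]

/-- A holomorphic function on `ℍ` whose real part attains its maximum is constant. -/
theorem const_of_re_max (H : ℍ → ℂ)
    (hdiff : ∀ τ : ℍ, DifferentiableAt ℂ (H ∘ ofComplex) ↑τ) (z₀ : ℍ)
    (hmax : ∀ z : ℍ, (H z).re ≤ (H z₀).re) : ∀ z w : ℍ, H z = H w := by
  set U : Set ℂ := {z | 0 < z.im} with hU
  have hUo : IsOpen U := isOpen_upperHalfPlaneSet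
  have hUc : IsPreconnected U := (convex_halfSpace_im_gt 0).isPreconnected
  set K : ℂ → ℂ := H ∘ ofComplex with hK
  have hKd : ∀ z ∈ U, DifferentiableAt ℂ K z := fun z hz => hdiff ⟨z, hz⟩
  have hE : DifferentiableOn ℂ (fun z => Complex.exp (K z)) U :=
    fun z hz => (hKd z hz).cexp.differentiableWithinAt
  have hm : IsMaxOn (norm ∘ fun z => Complex.exp (K z)) U (z₀ : ℂ) := by
    intro z hz
    simp only [Function.comp_apply, Set.mem_ofPred_eq, Complex.norm_exp, hK, ofComplex_apply]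
    exact Real.exp_le_exp.mpr (hmax _)
  have hconst := Complex.eqOn_of_isPreconnected_of_isMaxOn_norm hUc hUo hE z₀.im_pos hm
  have hder : U.EqOn (deriv K) 0 := by
    intro z hz
    have h1 : (fun z => Complex.exp (K z)) =ᶠ[𝓝 z] fun _ => Complex.exp (K z₀) := by
      filter_upwards [hUo.mem_nhds hz] with y hy using hconst hy
    have h2 : deriv (fun z => Complex.exp (K z)) z = 0 := by
      rw [h1.deriv_eq]; simp
    have h3 := (hKd z hz).hasDerivAt.cexp.deriv
    rw [h2] at h3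
    have := mul_eq_zero.mp h3.symm
    simpa [Complex.exp_ne_zero] using this
  intro z w
  have := hUo.is_const_of_deriv_eq_zero hUc (fun z hz => (hKd z hz).differentiableWithinAt) hder
    z.im_pos w.im_pos
  simpa [hK] using this

theorem tendsto_vadd_atImInfty (x : ℝ) :
    Tendsto (fun w : ℍ => x +ᵥ w) atImInfty atImInfty := by
  simp only [atImInfty, tendsto_comap_iff, Function.comp_def, vadd_im]
  exact tendsto_comap

/-- holomorphy of `w ↦ H (δ • w)`. -/
theorem differentiableAt_comp_smul (H : ℍ → ℂ)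
    (hdiff : ∀ τ : ℍ, DifferentiableAt ℂ (H ∘ ofComplex) ↑τ) (δ : SL(2, ℤ)) (τ : ℍ) :
    DifferentiableAt ℂ ((fun w : ℍ => H (δ • w)) ∘ ofComplex) ↑τ := by
  rw [← mdifferentiableAt_iff]
  have h1 : MDiff H := fun τ => mdifferentiableAt_iff.mpr (hdiff τ)
  have h2 : MDiff (fun τ : ℍ ↦ δ • τ) := by
    have := mdifferentiable_smul (g := ((δ : SL(2, ℝ)) : GL (Fin 2) ℝ)) (by simp)
    exact this
  exact (h1.comp h2) τ

end MaxPrinciple

open MaxPrinciple in
theorem const_of_re_invariant (Γ : Subgroup SL(2, ℤ)) [Γ.FiniteIndex] (H : ℍ → ℂ)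
    (hdiff : ∀ τ : ℍ, DifferentiableAt ℂ (H ∘ ofComplex) ↑τ)
    (hequiv : ∀ γ ∈ Γ, ∃ c : ℂ, c.re = 0 ∧ ∀ z : ℍ, H (γ • z) - H z = c)
    (hlim : ∀ δ : SL(2, ℤ), ∃ L : ℂ, Tendsto (fun w : ℍ => H (δ • w)) atImInfty (𝓝 L)) :
    ∀ z w : ℍ, H z = H w := by
  -- the local maxima at each cusp
  have hcusp : ∀ δ : SL(2, ℤ), ∃ w₀ : ℍ, ∀ w : ℍ, 1 / 2 ≤ w.im →
      (H (δ • w)).re ≤ (H (δ • w₀)).re := by
    intro δ
    obtain ⟨L, hL⟩ := hlim δ
    obtain ⟨h, hh, -, hmem⟩ := Subgroup.exists_pow_mem_of_index_ne_zero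
      (Subgroup.FiniteIndex.index_ne_zero (H := Γ)) (δ * ModularGroup.T * δ⁻¹)
    obtain ⟨c, -, hc⟩ := hequiv _ hmem
    have hact : ∀ w : ℍ, (δ * ModularGroup.T * δ⁻¹) ^ h • (δ • w) = δ • ((h : ℝ) +ᵥ w) := by
      intro w
      rw [conj_pow, mul_smul, mul_smul, inv_smul_smul]
      congr 1
      have := modular_T_zpow_smul w (h : ℤ)
      simpa using this
    have hc0 : c = 0 := by
      have h1 : Tendsto (fun w : ℍ => H (δ • ((h : ℝ) +ᵥ w)) - H (δ • w)) atImInfty
          (𝓝 (L - L)) := (hL.comp (tendsto_vadd_atImInfty h)).sub hL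
      have h2 : (fun w : ℍ => H (δ • ((h : ℝ) +ᵥ w)) - H (δ • w)) = fun _ => c := by
        funext w
        rw [← hact, hc]
      rw [h2, sub_self] at h1
      exact tendsto_nhds_unique tendsto_const_nhds h1
    refine exists_max_cusp (fun w => H (δ • w)) (differentiableAt_comp_smul H hdiff δ) h hh ?_ L hL
    intro w
    have := hc (δ • w)
    rw [hact, hc0, sub_eq_zero] at this
    exact this
  choose w₀ hw₀ using hcusp
  have : Finite (SL(2, ℤ) ⧸ Γ) := Subgroup.finite_quotient_of_finiteIndex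
  obtain ⟨x₀, hx₀⟩ := Finite.exists_max
    (fun x : SL(2, ℤ) ⧸ Γ => (H ((x.out)⁻¹ • w₀ (x.out)⁻¹)).re)
  refine const_of_re_max H hdiff ((x₀.out)⁻¹ • w₀ (x₀.out)⁻¹) fun z => ?_
  obtain ⟨g, hg⟩ := ModularGroup.exists_smul_mem_fd z
  have him : 1 / 2 ≤ (g • z).im := by
    have := ModularGroup.three_le_four_mul_im_sq_of_mem_fd hg
    nlinarith [(g • z).im_pos]
  set x : SL(2, ℤ) ⧸ Γ := (g : SL(2, ℤ) ⧸ Γ) with hx
  -- `x.out = g * γ'`
  have hγ : g⁻¹ * x.out ∈ Γ := by
    rw [← QuotientGroup.eq, hx, QuotientGroup.out_eq']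
  obtain ⟨c, hcre, hc⟩ := hequiv _ hγ
  have hz : z = (g⁻¹ * x.out) • ((x.out)⁻¹ • (g • z)) := by
    rw [mul_smul, smul_inv_smul, inv_smul_smul]
  have h1 : (H z).re = (H ((x.out)⁻¹ • (g • z))).re := by
    have := hc ((x.out)⁻¹ • (g • z))
    rw [← hz] at this
    have h2 := congrArg Complex.re this
    rw [Complex.sub_re, hcre] at h2
    linarith
  rw [h1]
  exact (hw₀ _ _ him).trans (hx₀ x)

end Fermat.Agent.S21
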