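import Mathlib
import Fermat.Prelude.Def_ModularCurve_PeriodHomPair
import Fermat.Prelude.Def_ModularCurve_GenusNumerics
import Fermat.Agent.S21.Primitive
import Fermat.Agent.S21.Conj
import Fermat.Agent.S21.MaxPrinciple
import Fermat.Agent.S21.DimGamma0

set_option autoImplicit false

namespace Fermat.Agent.S21

open UpperHalfPlane CongruenceSubgroup ModularCurve ModularCurve.Period Filter Topology
open scoped MatrixGroups ModularForm Manifold ComplexConjugate Pointwise

theorem eq_zero_of_prim_const {N : ℕ} {f : CuspForm (Gamma0 N) 2} {F : ℍ → ℂ}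
    (hF : IsPrim F f) (hc : ∀ z w : ℍ, F z = F w) : f = 0 := by
  ext τ
  have h1 : HasDerivAt (F ∘ ofComplex) (f τ) ↑τ := hF τ
  have h2 : (F ∘ ofComplex) = fun _ => F I := by
    funext z
    exact hc _ _
  rw [h2] at h1
  exact h1.unique (hasDerivAt_const _ _)

theorem eq_zero_of_period_conj {N : ℕ} [NeZero N] (h k : CuspForm (Gamma0 N) 2)
    (hper : ∀ γ : Gamma0 N, periodMap N h (Additive.ofMul γ) =
      conj (periodMap N k (Additive.ofMul γ))) : h = 0 ∧ k = 0 := by
  obtain ⟨F₁, hF₁⟩ := exists_primitive N h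
  obtain ⟨F₂, hF₂⟩ := exists_primitive N k
  have hA : ∀ z w : ℍ, (F₁ - F₂) z = (F₁ - F₂) w := by
    refine const_of_re_invariant (Gamma0 N) (F₁ - F₂) (fun τ => ?_) (fun γ hγ => ?_) (fun δ => ?_)
    · exact ((hF₁.1 τ).sub (hF₂.1 τ)).differentiableAt
    · refine ⟨periodMap N h (Additive.ofMul ⟨γ, hγ⟩) - periodMap N k (Additive.ofMul ⟨γ, hγ⟩),
        ?_, fun z => ?_⟩
      · rw [hper]
        simp
      · rw [periodMap_apply hF₁ ⟨γ, hγ⟩ z, periodMap_apply hF₂ ⟨γ, hγ⟩ z]
        simp only [Pi.sub_apply]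
        ring
    · obtain ⟨L, hL⟩ := hF₁.2.2.2 δ
      obtain ⟨M, hM⟩ := hF₂.2.2.2 δ
      exact ⟨L - M, hL.sub hM⟩
  have hB : ∀ z w : ℍ, (Complex.I • (F₁ + F₂)) z = (Complex.I • (F₁ + F₂)) w := by
    refine const_of_re_invariant (Gamma0 N) (Complex.I • (F₁ + F₂)) (fun τ => ?_)
      (fun γ hγ => ?_) (fun δ => ?_)
    · exact (((hF₁.1 τ).add (hF₂.1 τ)).const_smul Complex.I).differentiableAt
    · refine ⟨Complex.I * (periodMap N h (Additive.ofMul ⟨γ, hγ⟩) +
        periodMap N k (Additive.ofMul ⟨γ, hγ⟩)), ?_, fun z => ?_⟩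
      · rw [hper]
        simp
      · rw [periodMap_apply hF₁ ⟨γ, hγ⟩ z, periodMap_apply hF₂ ⟨γ, hγ⟩ z]
        simp only [Pi.smul_apply, Pi.add_apply, smul_eq_mul]
        ring
    · obtain ⟨L, hL⟩ := hF₁.2.2.2 δ
      obtain ⟨M, hM⟩ := hF₂.2.2.2 δ
      exact ⟨Complex.I • (L + M), (hL.add hM).const_smul Complex.I⟩
  have hB' : ∀ z w : ℍ, F₁ z + F₂ z = F₁ w + F₂ w := by
    intro z w
    have := hB z w
    simp only [Pi.smul_apply, Pi.add_apply, smul_eq_mul] at this
    exact mul_left_cancel₀ Complex.I_ne_zero this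
  have hA' : ∀ z w : ℍ, F₁ z - F₂ z = F₁ w - F₂ w := fun z w => hA z w
  constructor
  · refine eq_zero_of_prim_const (F := F₁) hF₁.1 fun z w => ?_
    linear_combination (1 / 2 : ℂ) * hA' z w + (1 / 2 : ℂ) * hB' z w
  · refine eq_zero_of_prim_const (F := F₂) hF₂.1 fun z w => ?_
    linear_combination (1 / 2 : ℂ) * hB' z w - (1 / 2 : ℂ) * hA' z w

theorem J_smul_J_smul (z : ℍ) : J • (J • z) = z := by
  rw [← mul_smul, ← sq, J_sq, one_smul]

theorem eq_zero_of_conjForm_eq_zero {N : ℕ} {f : CuspForm (Gamma0 N) 2} (h : conjForm f = 0) :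
    f = 0 := by
  ext z
  have h1 := conjForm_apply f (J • z)
  rw [h, J_smul_J_smul] at h1
  have h2 : conj (f z) = 0 := h1.symm
  simpa using h2

theorem periodHomPair_apply (N : ℕ) [NeZero N] (f g : CuspForm (Gamma0 N) 2) :
    periodHomPair N (f, g) = (periodMap N f + charInvolution N ℂ ℂ (periodMap N f)) +
      (periodMap N g - charInvolution N ℂ ℂ (periodMap N g)) := by
  obtain ⟨pml, hpml, h⟩ := periodHomPair_def N (existsPeriodMapLinear N)
  rw [h]
  simp [hpml]

theorem periodHomPair_apply_apply (N : ℕ) [NeZero N] (f g : CuspForm (Gamma0 N) 2)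
    (γ : Gamma0 N) :
    periodHomPair N (f, g) (Additive.ofMul γ) = periodMap N (f + g) (Additive.ofMul γ) -
      conj (periodMap N (conjForm (f - g)) (Additive.ofMul γ)) := by
  have h1 : charInvolution N ℂ ℂ (periodMap N (f - g)) (Additive.ofMul γ) = _ :=
    charInvolution_periodMap (f - g) γ
  have h2 : periodMap N (f - g) = periodMap N f - periodMap N g :=
    map_sub (periodMapLin N) f g
  rw [h2, map_sub] at h1
  rw [periodHomPair_apply, periodMap_add]
  simp only [AddMonoidHom.add_apply, AddMonoidHom.sub_apply] at h1 ⊢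
  linear_combination h1

theorem periodHomPair_injective (N : ℕ) [NeZero N] : Function.Injective (periodHomPair N) := by
  rw [injective_iff_map_eq_zero]
  rintro ⟨f, g⟩ hfg
  have h1 : ∀ γ : Gamma0 N, periodMap N (f + g) (Additive.ofMul γ) =
      conj (periodMap N (conjForm (f - g)) (Additive.ofMul γ)) := by
    intro γ
    have := periodHomPair_apply_apply N f g γ
    rw [hfg] at this
    exact (sub_eq_zero.1 this.symm)
  obtain ⟨h2, h3⟩ := eq_zero_of_period_conj _ _ h1
  have h4 := eq_zero_of_conjForm_eq_zero h3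
  have hf : f = g := sub_eq_zero.1 h4
  subst hf
  have hf0 : f = 0 := by
    have : (2 : ℂ) • f = 0 := by rw [two_smul]; exact h2
    exact (smul_eq_zero.1 this).resolve_left two_ne_zero
  rw [hf0]
  rfl

theorem range_periodHomPair_le (N : ℕ) [NeZero N] :
    LinearMap.range (periodHomPair N) ≤ parabolicHoms ℂ (Gamma0 N) ℂ := by
  rintro _ ⟨⟨f, g⟩, rfl⟩
  rw [periodHomPair_apply]
  have hf := periodMap_mem_parabolicHoms N f
  have hg := periodMap_mem_parabolicHoms N g
  exact add_mem (add_mem hf (charInvolution_mem_parabolicHoms N ℂ ℂ hf))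
    (sub_mem hg (charInvolution_mem_parabolicHoms N ℂ ℂ hg))

/-- The pair period map with codomain restricted to the parabolic homs. -/
noncomputable def periodHomPairRestrict (N : ℕ) [NeZero N] :
    (CuspForm (Gamma0 N) 2 × CuspForm (Gamma0 N) 2) →ₗ[ℂ] parabolicHoms ℂ (Gamma0 N) ℂ :=
  (periodHomPair N).codRestrict _ fun x => range_periodHomPair_le N ⟨x, rfl⟩

theorem periodHomPairRestrict_injective (N : ℕ) [NeZero N] :
    Function.Injective (periodHomPairRestrict N) := fun x y h =>
  periodHomPair_injective N (congrArg Subtype.val h)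

theorem finiteDimensional_cuspForm_prod (N : ℕ) [NeZero N] :
    FiniteDimensional ℂ (CuspForm (Gamma0 N) 2 × CuspForm (Gamma0 N) 2) := by
  haveI := finiteDimensional_parabolicHoms_Gamma0 N
  exact FiniteDimensional.of_injective (periodHomPairRestrict N)
    (periodHomPairRestrict_injective N)

theorem finiteDimensional_cuspForm (N : ℕ) [NeZero N] :
    FiniteDimensional ℂ (CuspForm (Gamma0 N) 2) := by
  haveI := finiteDimensional_cuspForm_prod N
  exact FiniteDimensional.of_injective (LinearMap.inl ℂ (CuspForm (Gamma0 N) 2)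
    (CuspForm (Gamma0 N) 2)) LinearMap.inl_injective

/-- The upper bound `dim S₂(Γ₀(N)) ≤ g`, a consequence of the injectivity of the period map. -/
theorem finrank_cuspForm_le (N : ℕ) [NeZero N] :
    (Module.finrank ℂ (CuspForm (Gamma0 N) 2) : ℚ) ≤ genusFormula N := by
  haveI := finiteDimensional_parabolicHoms_Gamma0 N
  haveI := finiteDimensional_cuspForm N
  have h1 := LinearMap.finrank_le_finrank_of_injective (periodHomPairRestrict_injective N)
  rw [Module.finrank_prod] at h1
  have h2 := finrank_parabolicHoms_Gamma0_le N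
  have h3 : ((Module.finrank ℂ (CuspForm (Gamma0 N) 2) +
      Module.finrank ℂ (CuspForm (Gamma0 N) 2) : ℕ) : ℚ) ≤
      (Module.finrank ℂ (parabolicHoms ℂ (Gamma0 N) ℂ) : ℚ) := by exact_mod_cast h1
  push_cast at h3
  linarith

/-- Eichler--Shimura from the lower bound `g ≤ dim S₂(Γ₀(N))`. -/
theorem eichlerShimura_of_le (N : ℕ) [NeZero N]
    (h20 : genusFormula N ≤ (Module.finrank ℂ (CuspForm (Gamma0 N) 2) : ℚ)) :
    Function.Injective (periodHomPair N) ∧
      LinearMap.range (periodHomPair N) = parabolicHoms ℂ (Gamma0 N) ℂ := by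
  refine ⟨periodHomPair_injective N, ?_⟩
  haveI := finiteDimensional_parabolicHoms_Gamma0 N
  haveI := finiteDimensional_cuspForm N
  refine Submodule.eq_of_le_of_finrank_le (range_periodHomPair_le N) ?_
  rw [LinearMap.finrank_range_of_inj (periodHomPair_injective N), Module.finrank_prod]
  have h2 := finrank_parabolicHoms_Gamma0_le N
  have h3 : (Module.finrank ℂ (parabolicHoms ℂ (Gamma0 N) ℂ) : ℚ) ≤
      ((Module.finrank ℂ (CuspForm (Gamma0 N) 2) +
      Module.finrank ℂ (CuspForm (Gamma0 N) 2) : ℕ) : ℚ) := by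
    push_cast
    linarith
  exact_mod_cast h3

end Fermat.Agent.S21
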